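import Mathlib
import Fermat.Agent.S20.Defs
import Fermat.Agent.S20.Rank
import Fermat.Agent.S24.JConj
import Fermat.Prelude.Def_FLTPrelim_Modularity
import Fermat.Prelude.Thm_CongruenceSubgroup_one_mem_strictPeriods_Gamma0

/-!
# S16: the weight-2 Eisenstein series of level `p`

`Estar p z = (p E₂(p z) - E₂(z)) / 24`, a modular form of weight 2 for `Γ₀(p)` with `q`-expansion
`(p-1)/24 + ∑ σ'(n) qⁿ`, `σ'(n) = ∑_{d ∣ n, p ∤ d} d`.
-/

set_option autoImplicit false

namespace Fermat.Agent.S16.Estar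

open UpperHalfPlane CongruenceSubgroup Matrix.SpecialLinearGroup Filter Topology EisensteinSeries
open Fermat.Agent.S20 Fermat.Agent.S20.Rank Fermat.Agent.S24.JConj
open scoped MatrixGroups ModularForm Manifold Real

noncomputable section

/-- the constant `2πi / (2 ζ(2))` of the transformation law of `E₂` -/
def kap : ℂ := (1 / (2 * riemannZeta 2)) * (2 * π * Complex.I)

/-- pointwise transformation law of `E₂` -/
theorem E2_smul (γ : SL(2, ℤ)) (z : ℍ) :
    E2 (γ • z) = (denom γ z) ^ 2 * E2 z - kap * (γ 1 0 : ℤ) * denom γ z := by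
  have h := congrFun (E2_slash_action γ) z
  rw [ModularForm.SL_slash_apply] at h
  have hd : denom γ z ≠ 0 := denom_ne_zero γ z
  simp only [Pi.sub_apply, Pi.smul_apply, D2, smul_eq_mul] at h
  have h2 : E2 (γ • z) = (E2 z - 1 / (2 * riemannZeta 2) * (2 * π * Complex.I * (γ 1 0 : ℤ) /
      denom γ z)) * denom γ z ^ 2 := by
    rw [← h, zpow_neg, mul_assoc]
    have : (denom γ z ^ (2 : ℤ))⁻¹ * denom γ z ^ 2 = 1 := by
      rw [zpow_ofNat]
      exact inv_mul_cancel₀ (pow_ne_zero 2 hd)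
    rw [this, mul_one]
  rw [h2, kap]
  field_simp

variable (N : ℕ) [NeZero N]

/-- `N E₂(N z) - E₂(z)` -/
def fE (z : ℍ) : ℂ := (N : ℂ) * E2 (mulN N z) - E2 z

/-- explicit conjugate `γ' = diag(N,1) γ diag(N,1)⁻¹` of `γ ∈ Γ₀(N)` -/
theorem exists_conj_of_mem_Gamma0 (γ : SL(2, ℤ)) (hγ : γ ∈ Gamma0 N) :
    ∃ γ' : SL(2, ℤ), (N : ℤ) * γ' 1 0 = γ 1 0 ∧ γ' 1 1 = γ 1 1 ∧
      ∀ z : ℍ, mulN N (γ • z) = γ' • mulN N z := by
  rw [Gamma0_mem] at hγ
  have hdvd : (N : ℤ) ∣ γ 1 0 := (ZMod.intCast_zmod_eq_zero_iff_dvd _ _).mp hγ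
  obtain ⟨c', hc'⟩ := hdvd
  have hdet : γ 0 0 * γ 1 1 - γ 0 1 * γ 1 0 = 1 := by
    have := γ.det_coe
    rwa [Matrix.det_fin_two] at this
  have hN : (0 : ℤ) < N := by exact_mod_cast Nat.pos_of_ne_zero (NeZero.ne N)
  let γ' : SL(2, ℤ) := ⟨!![γ 0 0, N * γ 0 1; c', γ 1 1], by
    rw [Matrix.det_fin_two_of]; rw [hc'] at hdet; linarith⟩
  refine ⟨γ', by simp [γ', hc'], by simp [γ'], fun z => ?_⟩
  have := mulN_smul_of_decomp N γ γ' N 0 1 hN one_pos (by simp [γ', mul_comm]) (by simp [γ'])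
    (by simp [γ', hc', mul_comm]) (by simp [γ']) z
  rw [this]
  congr 1
  apply UpperHalfPlane.ext
  rw [coe_mulN, coe_affH]
  push_cast
  ring

theorem fE_smul_of_mem_Gamma0 (γ : SL(2, ℤ)) (hγ : γ ∈ Gamma0 N) (z : ℍ) :
    fE N (γ • z) = (denom γ z) ^ 2 * fE N z := by
  obtain ⟨γ', h10, h11, hγ'⟩ := exists_conj_of_mem_Gamma0 N γ hγ
  have hden : denom γ' (mulN N z) = denom γ z := by
    rw [ModularGroup.denom_apply, ModularGroup.denom_apply, coe_mulN, h11, ← h10]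
    push_cast
    ring
  unfold fE
  rw [hγ' z, E2_smul γ' (mulN N z), E2_smul γ z, hden, ← h10]
  push_cast
  ring

theorem fE_slash_of_mem_Gamma0 (γ : SL(2, ℤ)) (hγ : γ ∈ Gamma0 N) :
    fE N ∣[(2 : ℤ)] γ = fE N := by
  ext z
  rw [ModularForm.SL_slash_apply, fE_smul_of_mem_Gamma0 N γ hγ z]
  have hd : denom γ z ≠ 0 := denom_ne_zero γ z
  rw [zpow_neg, zpow_ofNat]
  field_simp

theorem mdiff_fE : MDiff (fE N) := by
  have h1 : MDiff (fun z : ℍ => E2 (mulN N z)) :=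
    mdiff_comp_affH N 0 1 (natCast_pos' N) one_pos E2_mdifferentiable
  exact (h1.const_smul (N : ℂ)).sub E2_mdifferentiable

/-- the slash of `fE` by an arbitrary `δ ∈ SL(2,ℤ)`: if `diag(N,1) δ = γ (a b; 0 d)` then
`(fE ∣ δ)(z) = (a/d) E₂((a z + b)/d) - E₂(z)`. -/
theorem fE_slash_of_decomp (δ γ : SL(2, ℤ)) (a b d : ℤ) (ha : 0 < a) (hd : 0 < d)
    (had : a * d = N)
    (h1 : (N : ℤ) * δ 0 0 = γ 0 0 * a) (h2 : (N : ℤ) * δ 0 1 = γ 0 0 * b + γ 0 1 * d)
    (h3 : δ 1 0 = γ 1 0 * a) (h4 : δ 1 1 = γ 1 0 * b + γ 1 1 * d) (z : ℍ) :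
    (fE N ∣[(2 : ℤ)] δ) z =
      ((a : ℂ) / d) * E2 (affH a b d (intCast_pos' ha) (intCast_pos' hd) z) - E2 z := by
  set w := affH a b d (intCast_pos' ha) (intCast_pos' hd) z with hw
  have hmul : mulN N (δ • z) = γ • w := mulN_smul_of_decomp N δ γ a b d ha hd h1 h2 h3 h4 z
  have hdC : (d : ℂ) ≠ 0 := by exact_mod_cast hd.ne'
  have hwc : (w : ℂ) = ((a : ℂ) * z + b) / d := by
    rw [hw, coe_affH]; push_cast; rfl
  have hden : denom δ z = (d : ℂ) * denom γ w := by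
    rw [ModularGroup.denom_apply, ModularGroup.denom_apply, hwc, h3, h4]
    push_cast
    field_simp
    ring
  have hD : denom δ z ≠ 0 := denom_ne_zero δ z
  have hDw : denom γ w ≠ 0 := denom_ne_zero γ w
  have hNC : (N : ℂ) = (a : ℂ) * d := by exact_mod_cast had.symm
  have h3C : ((δ 1 0 : ℤ) : ℂ) = (γ 1 0 : ℤ) * a := by exact_mod_cast h3
  rw [ModularForm.SL_slash_apply]
  unfold fE
  rw [hmul, E2_smul γ w, E2_smul δ z, zpow_neg, zpow_ofNat, hden, hNC, h3C]
  field_simp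
  ring

theorem exists_fE_slash (δ : SL(2, ℤ)) :
    ∃ (a b d : ℤ) (ha : 0 < a) (hd : 0 < d), a * d = N ∧ a ∣ δ 1 0 ∧ ∀ z : ℍ,
      (fE N ∣[(2 : ℤ)] δ) z =
        ((a : ℂ) / d) * E2 (affH a b d (intCast_pos' ha) (intCast_pos' hd) z) - E2 z := by
  obtain ⟨γ, a, b, d, ha, hd, had, h1, h2, h3, h4⟩ := hermite_decomp N δ
  exact ⟨a, b, d, ha, hd, had, ⟨γ 1 0, by rw [h3]; ring⟩,
    fE_slash_of_decomp N δ γ a b d ha hd had h1 h2 h3 h4⟩

theorem isBoundedAtImInfty_fE_slash (δ : SL(2, ℤ)) :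
    IsBoundedAtImInfty (fE N ∣[(2 : ℤ)] δ) := by
  obtain ⟨a, b, d, ha, hd, -, -, h⟩ := exists_fE_slash N δ
  have hfun : fE N ∣[(2 : ℤ)] δ = fun z : ℍ =>
      ((a : ℂ) / d) * E2 (affH a b d (intCast_pos' ha) (intCast_pos' hd) z) - E2 z := funext h
  rw [hfun]
  have hb1 : IsBoundedAtImInfty (fun z : ℍ =>
      E2 (affH a b d (intCast_pos' ha) (intCast_pos' hd) z)) := by
    have := isBoundedAtImInfty_E2
    rw [IsBoundedAtImInfty, BoundedAtFilter] at this ⊢
    exact this.comp_tendsto (tendsto_affH _ _ _ _ _)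
  exact (hb1.const_mul_left _).sub isBoundedAtImInfty_E2

theorem isMF_fE : IsMF N 2 (fE N) :=
  ⟨mdiff_fE N, fE_slash_of_mem_Gamma0 N, isBoundedAtImInfty_fE_slash N⟩

/-! ### the `q`-expansion -/

open ModularFormClass in
/-- `σ'_N(n)`: the sum of the divisors of `n` not divisible by `N` -/
def sigmaPrime (n : ℕ) : ℕ := ∑ d ∈ n.divisors with ¬ N ∣ d, d

open scoped ArithmeticFunction.sigma in
theorem sigma_eq_sigmaPrime_add (n : ℕ) :
    σ 1 n = sigmaPrime N n + (if N ∣ n then N * σ 1 (n / N) else 0) := by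
  rw [ArithmeticFunction.sigma_one_apply, sigmaPrime]
  rw [← Finset.sum_filter_add_sum_filter_not n.divisors (fun d => ¬ N ∣ d)]
  congr 1
  simp only [not_not]
  split_ifs with hN
  · obtain ⟨m, rfl⟩ := hN
    have hN0 : N ≠ 0 := NeZero.ne N
    rw [Nat.mul_div_cancel_left _ (Nat.pos_of_ne_zero hN0), ArithmeticFunction.sigma_one_apply,
      Finset.mul_sum]
    by_cases hm : m = 0
    · subst hm; simp
    symm
    refine Finset.sum_bij (fun d _ => N * d) ?_ ?_ ?_ ?_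
    · intro d hd
      rw [Finset.mem_filter, Nat.mem_divisors]
      rw [Nat.mem_divisors] at hd
      exact ⟨⟨Nat.mul_dvd_mul_left N hd.1, Nat.mul_ne_zero hN0 hm⟩, dvd_mul_right N d⟩
    · intro d₁ _ d₂ _ h
      exact Nat.eq_of_mul_eq_mul_left (Nat.pos_of_ne_zero hN0) h
    · intro e he
      rw [Finset.mem_filter, Nat.mem_divisors] at he
      obtain ⟨⟨he1, -⟩, d, rfl⟩ := he
      refine ⟨d, ?_, rfl⟩
      rw [Nat.mem_divisors]
      exact ⟨(Nat.mul_dvd_mul_iff_left (Nat.pos_of_ne_zero hN0)).mp he1, hm⟩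
    · intro d _; rfl
  · apply Finset.sum_eq_zero
    intro d hd
    rw [Finset.mem_filter, Nat.mem_divisors] at hd
    exact absurd (hd.2.trans hd.1.1) hN

open scoped ArithmeticFunction.sigma in
/-- the coefficients of `E₂` -/
def e2c (m : ℕ) : ℂ := if m = 0 then 1 else -24 * (σ 1 m : ℂ)

theorem hasSum_E2 (τ : ℍ) :
    HasSum (fun m : ℕ => e2c m • Function.Periodic.qParam 1 (τ : ℂ) ^ m) (E2 τ) := by
  simpa only [Function.Periodic.qParam, Complex.ofReal_one, div_one, e2c] using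
    hasSum_qExpansion_E2 (z := τ)

theorem qParam_mulN (τ : ℍ) :
    Function.Periodic.qParam 1 ((mulN N τ : ℍ) : ℂ) = Function.Periodic.qParam 1 (τ : ℂ) ^ N := by
  rw [coe_mulN]
  simp only [Function.Periodic.qParam, Complex.ofReal_one, div_one]
  rw [← Complex.exp_nat_mul]
  congr 1
  ring

theorem hasSum_E2_mulN (τ : ℍ) :
    HasSum (fun n : ℕ => (if N ∣ n then e2c (n / N) else 0) •
      Function.Periodic.qParam 1 (τ : ℂ) ^ n) (E2 (mulN N τ)) := by
  have h := hasSum_E2 (mulN N τ)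
  rw [qParam_mulN] at h
  have hN0 : 0 < N := Nat.pos_of_ne_zero (NeZero.ne N)
  have hinj : Function.Injective (fun m : ℕ => N * m) := fun a b hab =>
    Nat.eq_of_mul_eq_mul_left hN0 hab
  refine (Function.Injective.hasSum_iff hinj ?_).mp ?_
  · intro n hn
    have : ¬ N ∣ n := fun ⟨m, hm⟩ => hn ⟨m, hm.symm⟩
    simp [this]
  · convert h using 2 with m
    simp only [Function.comp_apply, dvd_mul_right, if_true, Nat.mul_div_cancel_left _ hN0, pow_mul]

/-- the coefficients of `Estar` -/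
def estarCoeff (n : ℕ) : ℂ := if n = 0 then ((N : ℂ) - 1) / 24 else (sigmaPrime N n : ℂ)

theorem hasSum_fE (τ : ℍ) :
    HasSum (fun n : ℕ => (24 * estarCoeff N n) • Function.Periodic.qParam 1 (τ : ℂ) ^ n)
      (fE N τ) := by
  have h1 := (hasSum_E2_mulN N τ).mul_left (N : ℂ)
  have h2 := h1.sub (hasSum_E2 τ)
  have hN0 : 0 < N := Nat.pos_of_ne_zero (NeZero.ne N)
  have hc : ∀ n : ℕ, 24 * estarCoeff N n =
      (N : ℂ) * (if N ∣ n then e2c (n / N) else 0) - e2c n := by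
    intro n
    unfold estarCoeff e2c
    by_cases hn : n = 0
    · subst hn
      simp
      ring
    · rw [if_neg hn, if_neg hn]
      have hs := sigma_eq_sigmaPrime_add N n
      by_cases hNn : N ∣ n
      · rw [if_pos hNn] at hs ⊢
        have hnN : n / N ≠ 0 := by
          obtain ⟨m, rfl⟩ := hNn
          rw [Nat.mul_div_cancel_left _ hN0]
          rintro rfl
          exact hn (by simp)
        rw [if_neg hnN, hs]
        push_cast
        ring
      · rw [if_neg hNn] at hs ⊢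
        rw [hs]
        push_cast
        ring
  have hfun : (fun n : ℕ => (24 * estarCoeff N n) • Function.Periodic.qParam 1 (τ : ℂ) ^ n) =
      fun b : ℕ => (N : ℂ) * ((if N ∣ b then e2c (b / N) else 0) •
        Function.Periodic.qParam 1 (τ : ℂ) ^ b) - e2c b • Function.Periodic.qParam 1 (τ : ℂ) ^ b := by
    funext n
    rw [hc n]
    simp only [smul_eq_mul]
    ring
  rw [hfun]
  exact h2

/-! ### the modular form -/

/-- the Eisenstein series `E* = (N E₂(N z) - E₂(z)) / 24` as a modular form of weight `2` for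
`Γ₀(N)` -/
def EstarMF : ModularForm (Gamma0 N) 2 := ((isMF_fE N).smul (1 / 24 : ℂ)).toMF

theorem EstarMF_apply (τ : ℍ) : EstarMF N τ = (1 / 24 : ℂ) * fE N τ := rfl

theorem hasSum_EstarMF (τ : ℍ) :
    HasSum (fun n : ℕ => estarCoeff N n • Function.Periodic.qParam 1 (τ : ℂ) ^ n)
      (EstarMF N τ) := by
  have h := (hasSum_fE N τ).mul_left (1 / 24 : ℂ)
  rw [EstarMF_apply]
  have hfun : (fun n : ℕ => estarCoeff N n • Function.Periodic.qParam 1 (τ : ℂ) ^ n) =
      fun i : ℕ => (1 / 24 : ℂ) * ((24 * estarCoeff N i) • Function.Periodic.qParam 1 (τ : ℂ) ^ i) := by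
    funext n
    simp only [smul_eq_mul]
    ring
  rw [hfun]
  exact h

/-- **the `q`-expansion of `E*`**: constant term `(N-1)/24`, `n`-th coefficient `σ'_N(n)`. -/
theorem qCoeff_EstarMF (n : ℕ) :
    ModularFormClass.qCoeff (⇑(EstarMF N)) n = estarCoeff N n := by
  unfold ModularFormClass.qCoeff
  symm
  exact ModularFormClass.qExpansion_coeff_unique (c := estarCoeff N) one_pos
    (CongruenceSubgroup.one_mem_strictPeriods_Gamma0 N) (f := EstarMF N)
    (fun τ => hasSum_EstarMF N τ) n
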