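import Mathlib
import Fermat.Agent.S16.Estar

/-!
# S16: the level raising operator `V_d : f(z) ↦ f(d z)`

`f ∈ M_k(Γ₀(N)) ⇒ V_d f ∈ M_k(Γ₀(dN))`, with an explicit formula for every slash
`(V_d f) ∣ δ`, `δ ∈ SL(2,ℤ)`, and the `q`-expansion of `V_d f`.
-/

set_option autoImplicit false

namespace Fermat.Agent.S16.LevelRaise

open UpperHalfPlane CongruenceSubgroup Matrix.SpecialLinearGroup Filter Topology
open Fermat.Agent.S20 Fermat.Agent.S20.Rank Fermat.Agent.S24.JConj Fermat.Agent.S16.Estar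
open scoped MatrixGroups ModularForm Manifold Real

noncomputable section

variable (d : ℕ) [NeZero d]

/-- `V_d f (z) = f (d z)` -/
def Vd (f : ℍ → ℂ) (z : ℍ) : ℂ := f (mulN d z)

theorem mdiff_Vd {f : ℍ → ℂ} (hf : MDiff f) : MDiff (Vd d f) :=
  mdiff_comp_affH d 0 1 (natCast_pos' d) one_pos hf

/-- the slash of `V_d f` by an arbitrary `δ ∈ SL(2,ℤ)`: if `diag(d,1) δ = γ (a b; 0 e)` then
`((V_d f) ∣ δ)(z) = e^(-k) (f ∣ γ)((a z + b)/e)`. -/
theorem Vd_slash_of_decomp (f : ℍ → ℂ) (k : ℤ) (δ γ : SL(2, ℤ)) (a b e : ℤ) (ha : 0 < a)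
    (he : 0 < e)
    (h1 : (d : ℤ) * δ 0 0 = γ 0 0 * a) (h2 : (d : ℤ) * δ 0 1 = γ 0 0 * b + γ 0 1 * e)
    (h3 : δ 1 0 = γ 1 0 * a) (h4 : δ 1 1 = γ 1 0 * b + γ 1 1 * e) (z : ℍ) :
    (Vd d f ∣[k] δ) z =
      (e : ℂ) ^ (-k) * (f ∣[k] γ) (affH a b e (intCast_pos' ha) (intCast_pos' he) z) := by
  set w := affH a b e (intCast_pos' ha) (intCast_pos' he) z with hw
  have hmul : mulN d (δ • z) = γ • w := mulN_smul_of_decomp d δ γ a b e ha he h1 h2 h3 h4 z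
  have heC : (e : ℂ) ≠ 0 := by exact_mod_cast he.ne'
  have hwc : (w : ℂ) = ((a : ℂ) * z + b) / e := by
    rw [hw, coe_affH]; push_cast; rfl
  have hden : denom δ z = (e : ℂ) * denom γ w := by
    rw [ModularGroup.denom_apply, ModularGroup.denom_apply, hwc, h3, h4]
    push_cast
    field_simp
    ring
  rw [ModularForm.SL_slash_apply, ModularForm.SL_slash_apply]
  unfold Vd
  rw [hmul, hden, mul_zpow]
  ring

theorem exists_Vd_slash (f : ℍ → ℂ) (k : ℤ) (δ : SL(2, ℤ)) :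
    ∃ (γ : SL(2, ℤ)) (a b e : ℤ) (ha : 0 < a) (he : 0 < e), a * e = d ∧ a ∣ δ 1 0 ∧ ∀ z : ℍ,
      (Vd d f ∣[k] δ) z =
        (e : ℂ) ^ (-k) * (f ∣[k] γ) (affH a b e (intCast_pos' ha) (intCast_pos' he) z) := by
  obtain ⟨γ, a, b, e, ha, he, hae, h1, h2, h3, h4⟩ := hermite_decomp d δ
  exact ⟨γ, a, b, e, ha, he, hae, ⟨γ 1 0, by rw [h3]; ring⟩,
    Vd_slash_of_decomp d f k δ γ a b e ha he h1 h2 h3 h4⟩

variable {N : ℕ} {k : ℤ} {f : ℍ → ℂ}

/-- `Γ₀(dN)`-invariance of `V_d f` -/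
theorem Vd_slash_of_mem_Gamma0 (hinv : ∀ γ ∈ Gamma0 N, f ∣[k] (γ : SL(2, ℤ)) = f)
    (γ : SL(2, ℤ)) (hγ : γ ∈ Gamma0 (d * N)) : Vd d f ∣[k] γ = Vd d f := by
  rw [Gamma0_mem] at hγ
  have hdvd : ((d * N : ℕ) : ℤ) ∣ γ 1 0 := (ZMod.intCast_zmod_eq_zero_iff_dvd _ _).mp hγ
  have hd0 : (d : ℤ) ≠ 0 := by exact_mod_cast NeZero.ne d
  have hγd : γ ∈ Gamma0 d := by
    rw [Gamma0_mem, ZMod.intCast_zmod_eq_zero_iff_dvd]
    exact (Dvd.intro _ (by push_cast; rfl)).trans hdvd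
  obtain ⟨γ', h10, h11, hγ'⟩ := exists_conj_of_mem_Gamma0 d γ hγd
  have hγ'N : γ' ∈ Gamma0 N := by
    rw [Gamma0_mem, ZMod.intCast_zmod_eq_zero_iff_dvd]
    rw [← h10] at hdvd
    push_cast at hdvd
    exact (mul_dvd_mul_iff_left hd0).mp hdvd
  ext z
  have hden : denom γ' (mulN d z) = denom γ z := by
    rw [ModularGroup.denom_apply, ModularGroup.denom_apply, coe_mulN, h11, ← h10]
    push_cast
    ring
  have h := congrFun (hinv γ' hγ'N) (mulN d z)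
  rw [ModularForm.SL_slash_apply] at h ⊢
  unfold Vd
  rw [hγ' z, ← hden]
  exact h

theorem isBoundedAtImInfty_Vd_slash (hbdd : ∀ δ : SL(2, ℤ), IsBoundedAtImInfty (f ∣[k] δ))
    (δ : SL(2, ℤ)) : IsBoundedAtImInfty (Vd d f ∣[k] δ) := by
  obtain ⟨γ, a, b, e, ha, he, -, -, h⟩ := exists_Vd_slash d f k δ
  have hfun : Vd d f ∣[k] δ = fun z : ℍ =>
      (e : ℂ) ^ (-k) * (f ∣[k] γ) (affH a b e (intCast_pos' ha) (intCast_pos' he) z) := funext h
  rw [hfun]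
  have hb1 : IsBoundedAtImInfty (fun z : ℍ =>
      (f ∣[k] γ) (affH a b e (intCast_pos' ha) (intCast_pos' he) z)) := by
    have := hbdd γ
    rw [IsBoundedAtImInfty, BoundedAtFilter] at this ⊢
    exact this.comp_tendsto (tendsto_affH _ _ _ _ _)
  exact hb1.const_mul_left _

theorem isZeroAtImInfty_Vd_slash (hzero : ∀ δ : SL(2, ℤ), IsZeroAtImInfty (f ∣[k] δ))
    (δ : SL(2, ℤ)) : IsZeroAtImInfty (Vd d f ∣[k] δ) := by
  obtain ⟨γ, a, b, e, ha, he, -, -, h⟩ := exists_Vd_slash d f k δ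
  have hfun : Vd d f ∣[k] δ = fun z : ℍ =>
      (e : ℂ) ^ (-k) * (f ∣[k] γ) (affH a b e (intCast_pos' ha) (intCast_pos' he) z) := funext h
  rw [hfun]
  have hb1 : Tendsto (fun z : ℍ =>
      (f ∣[k] γ) (affH a b e (intCast_pos' ha) (intCast_pos' he) z)) atImInfty (𝓝 0) :=
    (hzero γ).comp (tendsto_affH _ _ _ _ _)
  have := hb1.const_mul ((e : ℂ) ^ (-k))
  rw [mul_zero] at this
  exact this

/-- **level raising**: `f ∈ M_k(Γ₀(N)) ⇒ V_d f ∈ M_k(Γ₀(dN))`. -/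
theorem IsMF.Vd (hf : IsMF N k f) : IsMF (d * N) k (Vd d f) :=
  ⟨mdiff_Vd d hf.1, Vd_slash_of_mem_Gamma0 d hf.2.1, isBoundedAtImInfty_Vd_slash d hf.2.2⟩

/-- **level raising** for cusp forms. -/
theorem IsCF.Vd (hf : IsCF N k f) : IsCF (d * N) k (Vd d f) :=
  ⟨mdiff_Vd d hf.1, Vd_slash_of_mem_Gamma0 d hf.2.1, isZeroAtImInfty_Vd_slash d hf.2.2⟩

/-! ### `q`-expansions -/

theorem hasSum_Vd {c : ℕ → ℂ}
    (hf : ∀ τ : ℍ, HasSum (fun n : ℕ => c n • Function.Periodic.qParam 1 (τ : ℂ) ^ n) (f τ))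
    (τ : ℍ) :
    HasSum (fun n : ℕ => (if d ∣ n then c (n / d) else 0) •
      Function.Periodic.qParam 1 (τ : ℂ) ^ n) (Vd d f τ) := by
  have h := hf (mulN d τ)
  rw [qParam_mulN] at h
  have hd0 : 0 < d := Nat.pos_of_ne_zero (NeZero.ne d)
  have hinj : Function.Injective (fun m : ℕ => d * m) := fun a b hab =>
    Nat.eq_of_mul_eq_mul_left hd0 hab
  show HasSum _ (f (mulN d τ))
  refine (Function.Injective.hasSum_iff hinj ?_).mp ?_
  · intro n hn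
    have : ¬ d ∣ n := fun ⟨m, hm⟩ => hn ⟨m, hm.symm⟩
    simp [this]
  · convert h using 2 with m
    simp only [Function.comp_apply, dvd_mul_right, if_true, Nat.mul_div_cancel_left _ hd0, pow_mul]

variable [NeZero N]

instance neZero_mul : NeZero (d * N) := ⟨Nat.mul_ne_zero (NeZero.ne d) (NeZero.ne N)⟩

/-- `V_d` on modular forms -/
def VdMF (F : ModularForm (Gamma0 N) k) : ModularForm (Gamma0 (d * N)) k :=
  (IsMF.Vd d (isMF_coe F)).toMF

/-- `V_d` on cusp forms -/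
def VdCF (F : CuspForm (Gamma0 N) k) : CuspForm (Gamma0 (d * N)) k :=
  (IsCF.Vd d (isCF_coe F)).toCF

@[simp] theorem VdMF_apply (F : ModularForm (Gamma0 N) k) (z : ℍ) :
    VdMF d F z = F (mulN d z) := rfl

@[simp] theorem VdCF_apply (F : CuspForm (Gamma0 N) k) (z : ℍ) :
    VdCF d F z = F (mulN d z) := rfl

theorem qCoeff_VdMF (F : ModularForm (Gamma0 N) k) (n : ℕ) :
    ModularFormClass.qCoeff (⇑(VdMF d F)) n =
      if d ∣ n then ModularFormClass.qCoeff (⇑F) (n / d) else 0 := by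
  have : Fact (IsCusp OnePoint.infty (Gamma0 N : Subgroup (GL (Fin 2) ℝ))) :=
    ⟨Subgroup.isCusp_of_mem_strictPeriods one_pos
      (CongruenceSubgroup.one_mem_strictPeriods_Gamma0 N)⟩
  unfold ModularFormClass.qCoeff
  symm
  refine ModularFormClass.qExpansion_coeff_unique
    (c := fun n => if d ∣ n then (UpperHalfPlane.qExpansion 1 ⇑F).coeff (n / d) else 0) one_pos
    (CongruenceSubgroup.one_mem_strictPeriods_Gamma0 (d * N)) (f := VdMF d F) (fun τ => ?_) n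
  exact hasSum_Vd d (f := ⇑F) (c := fun n => (UpperHalfPlane.qExpansion 1 ⇑F).coeff n)
    (fun τ => by
      simpa only [smul_eq_mul] using ModularForm.hasSum_qExpansion (f := F) one_pos
        (CongruenceSubgroup.one_mem_strictPeriods_Gamma0 N) τ) τ

theorem qCoeff_VdCF (F : CuspForm (Gamma0 N) k) (n : ℕ) :
    ModularFormClass.qCoeff (⇑(VdCF d F)) n =
      if d ∣ n then ModularFormClass.qCoeff (⇑F) (n / d) else 0 := by
  have : Fact (IsCusp OnePoint.infty (Gamma0 N : Subgroup (GL (Fin 2) ℝ))) :=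
    ⟨Subgroup.isCusp_of_mem_strictPeriods one_pos
      (CongruenceSubgroup.one_mem_strictPeriods_Gamma0 N)⟩
  unfold ModularFormClass.qCoeff
  symm
  refine ModularFormClass.qExpansion_coeff_unique
    (c := fun n => if d ∣ n then (UpperHalfPlane.qExpansion 1 ⇑F).coeff (n / d) else 0) one_pos
    (CongruenceSubgroup.one_mem_strictPeriods_Gamma0 (d * N)) (f := VdCF d F) (fun τ => ?_) n
  exact hasSum_Vd d (f := ⇑F) (c := fun n => (UpperHalfPlane.qExpansion 1 ⇑F).coeff n)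
    (fun τ => by
      simpa only [smul_eq_mul] using ModularForm.hasSum_qExpansion (f := F) one_pos
        (CongruenceSubgroup.one_mem_strictPeriods_Gamma0 N) τ) τ

end

end Fermat.Agent.S16.LevelRaise
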