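import Mathlib
import Fermat.Agent.S16.Estar
import Fermat.Agent.S16.LevelRaise
import Fermat.Prelude.Def_ModularForm_HeckeOperator

/-!
# S16 (C0): `estar24 p = p E₂(p z) - E₂(z)` in the shape of the level-one package (C)

Adapters between the Prelude's `ModularForm.heckeDiagMatrix d • z` and `mulN d z`.
-/

set_option autoImplicit false

namespace Fermat.Agent.S16.Estar

open UpperHalfPlane CongruenceSubgroup Matrix.SpecialLinearGroup EisensteinSeries
open Fermat.Agent.S20 Fermat.Agent.S20.Rank Fermat.Agent.S24.JConj Fermat.Agent.S16.LevelRaise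
open scoped MatrixGroups ModularForm Manifold Real

noncomputable section

/-- the Prelude's `diag(d,1) • z` is `mulN d z` -/
theorem heckeDiagMatrix_smul (d : ℕ) [NeZero d] (z : ℍ) :
    ModularForm.heckeDiagMatrix d • z = mulN d z := by
  apply UpperHalfPlane.ext
  rw [ModularForm.coe_heckeDiagMatrix_smul (NeZero.ne d), coe_mulN]

/-- `V_d` in terms of the Prelude's matrix -/
theorem Vd_eq (d : ℕ) [NeZero d] (f : ℍ → ℂ) :
    Vd d f = fun z => f (ModularForm.heckeDiagMatrix d • z) := by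
  funext z
  rw [heckeDiagMatrix_smul]
  rfl

/-- `f ∣[k] diag(d,1) = d^(k-1) V_d f` -/
theorem slash_heckeDiagMatrix_eq (k : ℤ) (d : ℕ) [NeZero d] (f : ℍ → ℂ) :
    f ∣[k] ModularForm.heckeDiagMatrix d = ((d : ℂ) ^ (k - 1)) • Vd d f := by
  funext z
  rw [ModularForm.slash_heckeDiagMatrix_apply k (NeZero.ne d), heckeDiagMatrix_smul]
  rfl

/-- `p E₂(p z) - E₂(z)` -/
def estar24 (p : ℕ) : ℍ → ℂ :=
  fun z => (p : ℂ) * E2 (ModularForm.heckeDiagMatrix p • z) - E2 z

/-- `σ*(n)`: the sum of the divisors of `n` prime to `p` -/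
def sigmaStar (p n : ℕ) : ℕ := ∑ d ∈ n.divisors with ¬ p ∣ d, d

theorem sigmaStar_eq_sigmaPrime (p n : ℕ) : sigmaStar p n = sigmaPrime p n := rfl

theorem estar24_eq_fE (p : ℕ) [NeZero p] : estar24 p = fE p := by
  funext z
  unfold estar24 fE
  rw [heckeDiagMatrix_smul]

theorem isMF_estar24 (p : ℕ) [NeZero p] : IsMF p 2 (estar24 p) := by
  rw [estar24_eq_fE]
  exact isMF_fE p

theorem qCoeff_estar24 (p : ℕ) [NeZero p] (n : ℕ) :
    ModularFormClass.qCoeff (estar24 p) n =
      if n = 0 then (p : ℂ) - 1 else 24 * (sigmaStar p n : ℂ) := by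
  rw [estar24_eq_fE]
  unfold ModularFormClass.qCoeff
  symm
  have hcoe : ⇑((isMF_fE p).toMF) = fE p := rfl
  have key := ModularFormClass.qExpansion_coeff_unique (c := fun m : ℕ => 24 * estarCoeff p m)
    one_pos (CongruenceSubgroup.one_mem_strictPeriods_Gamma0 p) (f := (isMF_fE p).toMF)
    (fun τ => hasSum_fE p τ) n
  rw [hcoe] at key
  rw [← key]
  unfold estarCoeff
  split_ifs with hn
  · field_simp
  · rfl

/-- the slash of `estar24` at an arbitrary cusp -/
theorem exists_estar24_slash (p : ℕ) [NeZero p] (δ : SL(2, ℤ)) :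
    ∃ (a b d : ℤ) (ha : 0 < a) (hd : 0 < d), a * d = p ∧ a ∣ δ 1 0 ∧ ∀ z : ℍ,
      (estar24 p ∣[(2 : ℤ)] δ) z =
        ((a : ℂ) / d) * E2 (affH a b d (intCast_pos' ha) (intCast_pos' hd) z) - E2 z := by
  rw [estar24_eq_fE]
  exact exists_fE_slash p δ

end

end Fermat.Agent.S16.Estar
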