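import Mathlib
import Fermat.Agent.S28.ChartRedInst
import Fermat.Agent.S28.ExportFinal
import Fermat.Agent.S28.RegDependent
import Fermat.Agent.S28.SeriesRed

/-!
# S16 / ChartQExp: the chart ring of `X₀(N)` over `ℤ_(ℓ)` and `q`-expansions

Corollaries of the chart reduction of S28 (`Fermat.Agent.S28.ChartRed`):
for `ℓ ∤ N`, `B = chartAlgFin N ℓ` (the integral closure of `ℤ_(ℓ)[j]` in the function field `F` of
`X₀(N)`), there is a ring hom `ρB : B →+* 𝔽_ℓ((q))` with kernel `ℓ B`, which is the reduction of the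
`q`-expansion on every element whose `q`-expansion is `ℓ`-integral.
-/

set_option autoImplicit false
set_option linter.unusedSectionVars false

namespace Fermat.Agent.S16.ChartQExp

open Polynomial ModularCurve ModularCurve.IgusaScheme Fermat.Agent.S28 Fermat.Agent.S28.ChartRed

noncomputable section

variable (N : ℕ) [NeZero N] (ℓ : ℕ) [hℓ : Fact ℓ.Prime]

/-- An `Input` from `(E1)`, `(E2)`, `(B1)` (general degree). -/
theorem nonempty_input_gen (n : ℕ)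
    (Φ : Polynomial (Polynomial ↥(GaloisRep.ratLocalizedAt ℓ))) (hm : Φ.Monic)
    (hn : Φ.natDegree = n)
    (hroot : Φ.eval₂ (aeval jq : Polynomial ↥(GaloisRep.ratLocalizedAt ℓ) →ₐ[↥(GaloisRep.ratLocalizedAt ℓ)]
        LaurentSeries ℚ).toRingHom (jqN N) = 0)
    (E2 : ∀ a : Fin n → Polynomial (ZMod ℓ),
      (∑ i, aeval (jqModC (ZMod ℓ)) (a i) * (jqNModC (ZMod ℓ) N) ^ (i : ℕ) = 0) → ∀ i, a i = 0)
    (B1 : ∀ v : Fin (n + 1) → LaurentSeries ℚ, (∀ i, v i ∈ modularFunctionFieldFull N) →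
      ∃ c : Fin (n + 1) → Polynomial ℤ, c ≠ 0 ∧ ∑ i, aeval jq (c i) * v i = 0) :
    Nonempty (Input N ℓ) := by
  subst hn
  rw [aeval_jq_Zl ℓ] at hroot
  exact ⟨{ Φ := Φ
           monic := hm
           root := hroot
           indep := E2
           span := span_of_dependent N ℓ Φ.natDegree E2 B1 }⟩

theorem nonempty_input (h : ¬ ℓ ∣ N) : Nonempty (Input N ℓ) := by
  obtain ⟨Φ, hm, hn, hroot⟩ := ExportFinal.E1 N ℓ h
  exact nonempty_input_gen N ℓ (dedekindPsi N) Φ hm hn hroot (ExportFinal.E2 N ℓ h)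
    (RegDegree.dependent_of_card N)

/-- the canonical input for `ℓ ∤ N` -/
def inputOf (h : ¬ ℓ ∣ N) : Input N ℓ := (nonempty_input N ℓ h).some


section Abstract

variable {P F D : Type*} [CommRing P] [IsDomain P] [IsNoetherianRing P] [Field F] [Field D]
  (S : Setup P F D)

theorem mem_CC_of_forall_dvd_aux {x : F}
    (hdvd : ∀ (b : P) (g : P[X]), S.φ b * x = S.ε g → g.natDegree < S.Φ.natDegree → S.ϖ ∣ b →
      C S.ϖ ∣ g) {b' : P} (hb' : ¬ S.ϖ ∣ b') :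
    ∀ (e : ℕ) (g : P[X]), g.natDegree < S.Φ.natDegree → S.φ (S.ϖ ^ e * b') * x = S.ε g →
      x ∈ S.CC := by
  intro e
  induction e with
  | zero =>
    intro g _ h
    exact ⟨b', hb', g, by simpa using h⟩
  | succ e ih =>
    intro g hdeg h
    have hd : S.ϖ ∣ S.ϖ ^ (e + 1) * b' := dvd_mul_of_dvd_left (dvd_pow_self _ (by omega)) _
    obtain ⟨g₁, hg₁⟩ := hdvd _ g h hdeg hd
    have hdeg₁ : g₁.natDegree < S.Φ.natDegree := by
      rw [hg₁, natDegree_C_mul S.ϖ_ne_zero] at hdeg; exact hdeg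
    apply ih g₁ hdeg₁
    have e1 : S.ε g = S.φ S.ϖ * S.ε g₁ := by
      show eval₂ S.φ S.θ g = _
      rw [hg₁, eval₂_mul, eval₂_C]
    have : S.φ S.ϖ * (S.φ (S.ϖ ^ e * b') * x) = S.φ S.ϖ * S.ε g₁ := by
      rw [← e1, ← h, pow_succ]; simp only [map_mul, map_pow]; ring
    exact mul_left_cancel₀ S.φϖ this

/-- a general membership criterion for the valuation ring `CC`. -/
theorem mem_CC_of_forall_dvd {x : F}
    (hdvd : ∀ (b : P) (g : P[X]), S.φ b * x = S.ε g → g.natDegree < S.Φ.natDegree → S.ϖ ∣ b →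
      C S.ϖ ∣ g) : x ∈ S.CC := by
  obtain ⟨b, hb0, g, hg⟩ := S.span x
  obtain ⟨g₁, hdeg, hg₁⟩ := S.exists_lt g
  obtain ⟨e, b', hb', rfl⟩ := WfDvdMonoid.max_power_factor' hb0 S.prime.not_isUnit
  exact mem_CC_of_forall_dvd_aux S hdvd hb' e g₁ hdeg (by rw [hg, hg₁])

end Abstract

section IntegralAdapter

/-- integrality over the subalgebra `K[j]` gives a monic polynomial with coefficients in the
polynomial ring `K[X]` evaluated at `j`. -/
theorem isIntegralElem_aeval_of_isIntegral_adjoin {K F : Type*} [Field K] [Field F] [Algebra K F]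
    (j x : F) (hx : IsIntegral (Algebra.adjoin K ({j} : Set F)) x) :
    ((aeval j : K[X] →ₐ[K] F).toRingHom).IsIntegralElem x := by
  obtain ⟨p, hp, hpx⟩ := hx
  let g : K[X] →ₐ[K] Algebra.adjoin K ({j} : Set F) :=
    (aeval j : K[X] →ₐ[K] F).codRestrict (Algebra.adjoin K ({j} : Set F)) (fun q => by
      rw [Algebra.adjoin_singleton_eq_range_aeval]; exact ⟨q, rfl⟩)
  have hg : Function.Surjective g := by
    rintro ⟨y, hy⟩
    rw [Algebra.adjoin_singleton_eq_range_aeval] at hy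
    obtain ⟨q, hq⟩ := hy
    exact ⟨q, Subtype.ext hq⟩
  have hl : p ∈ lifts g.toRingHom := by
    rw [lifts_iff_coeff_lifts]
    intro n
    obtain ⟨q, hq⟩ := hg (p.coeff n)
    exact ⟨q, hq⟩
  obtain ⟨q, hq, -, hqm⟩ := lifts_and_natDegree_eq_and_monic hl hp
  refine ⟨q, hqm, ?_⟩
  rw [← hq, eval₂_map] at hpx
  exact hpx

end IntegralAdapter

section Series

variable {N ℓ} (I : Input N ℓ)

/-- the relation `φ b * x = ε g` read on `q`-expansions mod `ℓ`. -/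
theorem series_eq {x : ↥(modularFunctionFieldFull N)}
    {X : LaurentSeries ↥(GaloisRep.ratLocalizedAt ℓ)}
    (hX : ιI ℓ X = (x : LaurentSeries ℚ)) {b : Polynomial ↥(GaloisRep.ratLocalizedAt ℓ)}
    {g : Polynomial (Polynomial ↥(GaloisRep.ratLocalizedAt ℓ))}
    (h : I.setup.φ b * x = I.setup.ε g) :
    φD ℓ b * rI ℓ X = eval₂ (φD ℓ) (jqNModC (ZMod ℓ) N) g := by
  have h0 : φF N ℓ b * x = eval₂ (φF N ℓ) (θF N) g := h
  have h1 : φL ℓ b * ιI ℓ X = eval₂ (φL ℓ) (jqN N) g := by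
    have := congrArg (coeF N) h0
    rw [map_mul, coeF_apply, coeF_apply, coeF_apply, coe_φF, coe_eval₂] at this
    rw [hX]; exact this
  rw [eval₂_φL] at h1
  have h2 : ιI ℓ (φI ℓ b * X) =
      ιI ℓ (eval₂ (φI ℓ) (jqNModC ↥(GaloisRep.ratLocalizedAt ℓ) N) g) := by
    rw [map_mul]; exact h1
  have h3 := ιI_injective ℓ h2
  rw [eval₂_φD, ← h3, map_mul]
  rfl

/-- an element of `F` with `ℓ`-integral `q`-expansion lies in the valuation ring `CC`. -/
theorem mem_CC_of_series {x : ↥(modularFunctionFieldFull N)}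
    {X : LaurentSeries ↥(GaloisRep.ratLocalizedAt ℓ)}
    (hX : ιI ℓ X = (x : LaurentSeries ℚ)) : x ∈ I.setup.CC := by
  apply mem_CC_of_forall_dvd I.setup
  intro b g h hdeg hb
  have h1 := series_eq I hX h
  have h2 : φD ℓ b = 0 := by
    obtain ⟨c, rfl⟩ := hb
    rw [map_mul]
    have : φD ℓ I.setup.ϖ = 0 := φD_Cl ℓ
    rw [this, zero_mul]
  rw [h2, zero_mul] at h1
  exact I.setup.indep g hdeg h1.symm

/-- on elements with `ℓ`-integral `q`-expansion, `ρ` is the reduction of the `q`-expansion. -/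
theorem ρ_of_series {x : ↥(modularFunctionFieldFull N)}
    {X : LaurentSeries ↥(GaloisRep.ratLocalizedAt ℓ)}
    (hX : ιI ℓ X = (x : LaurentSeries ℚ)) (hx : x ∈ I.setup.CC) :
    I.setup.ρ ⟨x, hx⟩ = rI ℓ X := by
  obtain ⟨b, hb, g, hg⟩ := hx
  have h1 := series_eq I hX hg
  have hb0 : φD ℓ b ≠ 0 := I.setup.φ'_ne_zero hb
  have e : I.setup.ρ ⟨x, ⟨b, hb, g, hg⟩⟩ = I.setup.ε' g / I.setup.φ' b :=
    I.setup.ρ_eq ⟨x, ⟨b, hb, g, hg⟩⟩ hb hg
  have e2 : I.setup.ε' g / I.setup.φ' b = rI ℓ X := by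
    show eval₂ (φD ℓ) (jqNModC (ZMod ℓ) N) g / φD ℓ b = rI ℓ X
    rw [← h1]
    exact mul_div_cancel_left₀ _ hb0
  exact e.trans e2

/-- on the finite chart ring, `ρFin` is the reduction of the `q`-expansion whenever the latter is
`ℓ`-integral. -/
theorem ρFin_of_series (x : chartAlgFin N ℓ) {X : LaurentSeries ↥(GaloisRep.ratLocalizedAt ℓ)}
    (hX : ιI ℓ X = ((x : ↥(modularFunctionFieldFull N)) : LaurentSeries ℚ)) :
    ρFin I x = rI ℓ X := by
  rw [ρFin_apply]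
  exact ρ_of_series I hX _

omit I in
theorem C_mem_fieldC (a : ZMod ℓ) :
    (HahnSeries.C a : LaurentSeries (ZMod ℓ)) ∈ modularFunctionFieldC (ZMod ℓ) N := by
  have h : (HahnSeries.C a : LaurentSeries (ZMod ℓ)) =
      algebraMap (ZMod ℓ) (LaurentSeries (ZMod ℓ)) a := by
    rw [HahnSeries.C_apply, algebraMap_laurentSeries_eq_single]
  rw [h]
  exact (modularFunctionFieldC (ZMod ℓ) N).algebraMap_mem a

omit I in
theorem φD_mem_fieldC (b : Polynomial ↥(GaloisRep.ratLocalizedAt ℓ)) :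
    φD ℓ b ∈ modularFunctionFieldC (ZMod ℓ) N := by
  have h : φD ℓ b = eval₂ (φD ℓ) (φD ℓ X) (b.map C) := by
    rw [eval₂_map]
    conv_lhs => rw [← eval₂_C_X (p := b)]
    rw [hom_eval₂]
  rw [φD_X] at h
  rw [h, eval₂_eq_sum_range]
  refine Subfield.sum_mem (modularFunctionFieldC (ZMod ℓ) N).toSubfield fun i _ => ?_
  refine (modularFunctionFieldC (ZMod ℓ) N).mul_mem ?_
    ((modularFunctionFieldC (ZMod ℓ) N).pow_mem (jqModC_mem (ZMod ℓ) N) i)
  rw [coeff_map, φD_C]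
  exact C_mem_fieldC _

omit I in
theorem eval₂_φD_mem_fieldC (g : Polynomial (Polynomial ↥(GaloisRep.ratLocalizedAt ℓ))) :
    eval₂ (φD ℓ) (jqNModC (ZMod ℓ) N) g ∈ modularFunctionFieldC (ZMod ℓ) N := by
  rw [eval₂_eq_sum_range]
  refine Subfield.sum_mem (modularFunctionFieldC (ZMod ℓ) N).toSubfield fun i _ => ?_
  exact (modularFunctionFieldC (ZMod ℓ) N).mul_mem (φD_mem_fieldC _)
    ((modularFunctionFieldC (ZMod ℓ) N).pow_mem (jqNModC_mem (ZMod ℓ) N) i)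

/-- the values of `ρ` lie in the function field `𝔽_ℓ(j̄, j̄_N)` of `X₀(N)` mod `ℓ`. -/
theorem ρ_mem_fieldC (x : I.setup.CC) : I.setup.ρ x ∈ modularFunctionFieldC (ZMod ℓ) N := by
  obtain ⟨x, b, hb, g, hg⟩ := x
  have e : I.setup.ρ ⟨x, ⟨b, hb, g, hg⟩⟩ = I.setup.ε' g / I.setup.φ' b :=
    I.setup.ρ_eq ⟨x, ⟨b, hb, g, hg⟩⟩ hb hg
  rw [e]
  exact (modularFunctionFieldC (ZMod ℓ) N).div_mem (eval₂_φD_mem_fieldC g) (φD_mem_fieldC b)

theorem ρFin_mem_fieldC (x : chartAlgFin N ℓ) :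
    ρFin I x ∈ modularFunctionFieldC (ZMod ℓ) N := by
  rw [ρFin_apply]
  exact ρ_mem_fieldC I _

end Series


section Units

variable {ℓ}

/-- an element of `ℤ_(ℓ)` not divisible by `ℓ` is a unit. -/
theorem isUnit_of_not_dvd {a : ↥(GaloisRep.ratLocalizedAt ℓ)}
    (h : ¬ (ℓ : ↥(GaloisRep.ratLocalizedAt ℓ)) ∣ a) : IsUnit a := by
  have hmul : a * (((a : ℚ).den : ℤ) : ↥(GaloisRep.ratLocalizedAt ℓ)) =
      (((a : ℚ).num : ℤ) : ↥(GaloisRep.ratLocalizedAt ℓ)) := by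
    apply Subtype.ext
    simp [Rat.mul_den_eq_num]
  have hden : IsUnit ((((a : ℚ).den : ℤ)) : ↥(GaloisRep.ratLocalizedAt ℓ)) := by
    have := IsLocalization.map_units (M := primeTo ℓ) ↥(GaloisRep.ratLocalizedAt ℓ)
      ⟨((a : ℚ).den : ℤ), den_mem_primeTo ℓ a⟩
    simpa using this
  have hnum : (a : ℚ).num ∈ primeTo ℓ := by
    rw [mem_primeTo]
    rintro ⟨c, hc⟩
    apply h
    have h1 : (ℓ : ↥(GaloisRep.ratLocalizedAt ℓ)) ∣
        a * (((a : ℚ).den : ℤ) : ↥(GaloisRep.ratLocalizedAt ℓ)) := by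
      rw [hmul, hc]
      exact ⟨(c : ↥(GaloisRep.ratLocalizedAt ℓ)), by push_cast; ring⟩
    rcases (prime_l ℓ).dvd_or_dvd h1 with h2 | h2
    · exact h2
    · exact absurd (isUnit_of_dvd_unit h2 hden) (prime_l ℓ).not_isUnit
  have hnumu : IsUnit ((((a : ℚ).num : ℤ)) : ↥(GaloisRep.ratLocalizedAt ℓ)) := by
    have := IsLocalization.map_units (M := primeTo ℓ) ↥(GaloisRep.ratLocalizedAt ℓ)
      ⟨(a : ℚ).num, hnum⟩
    simpa using this
  rw [← hmul] at hnumu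
  exact isUnit_of_mul_isUnit_left hnumu

end Units

section ChartRing

variable {N ℓ} (I : Input N ℓ)

theorem natCast_LSQ_ne_zero : ((ℓ : ℕ) : LaurentSeries ℚ) ≠ 0 := natCast_LS_ne_zero ℓ

/-- the coercion `B → ℚ((q))` as a ring hom -/
def coeB : chartAlgFin N ℓ →+* LaurentSeries ℚ :=
  (coeF N).comp (chartAlgFin N ℓ).val.toRingHom

theorem coeB_apply (x : chartAlgFin N ℓ) :
    coeB x = ((x : ↥(modularFunctionFieldFull N)) : LaurentSeries ℚ) := rfl

theorem natCast_LS_eq_zero : ((ℓ : ℕ) : LaurentSeries (ZMod ℓ)) = 0 := by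
  rw [← map_natCast (HahnSeries.C : ZMod ℓ →+* LaurentSeries (ZMod ℓ)), ZMod.natCast_self,
    map_zero]

theorem ρFin_natCast : ρFin I ((ℓ : ℕ) : chartAlgFin N ℓ) = 0 := by
  rw [map_natCast]; exact natCast_LS_eq_zero

include I

/-- **(K1)** `ℓ` is a prime element of the chart ring. -/
theorem prime_natCast : Prime ((ℓ : ℕ) : chartAlgFin N ℓ) := by
  refine ⟨?_, ?_, ?_⟩
  · intro h
    have h1 := congrArg (chartAlgFin N ℓ).val h
    rw [map_natCast, map_zero] at h1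
    exact natCast_FF_ne_zero h1
  · intro hu
    obtain ⟨u, hu⟩ := hu
    have h1 : ρFin I (((u : chartAlgFin N ℓ)) * ((u⁻¹ : (chartAlgFin N ℓ)ˣ) : chartAlgFin N ℓ)) =
        1 := by
      rw [Units.mul_inv, map_one]
    rw [map_mul, hu, ρFin_natCast, zero_mul] at h1
    exact zero_ne_one h1
  · intro a b hab
    obtain ⟨c, hc⟩ := hab
    have h1 : ρFin I a * ρFin I b = 0 := by
      rw [← map_mul, hc, map_mul, ρFin_natCast, zero_mul]
    rcases mul_eq_zero.mp h1 with h | h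
    · left
      obtain ⟨y, hy⟩ := ρFin_ker I a h
      exact ⟨y, hy⟩
    · right
      obtain ⟨y, hy⟩ := ρFin_ker I b h
      exact ⟨y, hy⟩

/-- **(K2)** an element of the chart ring whose `q`-expansion is divisible by `ℓ ^ k` is divisible
by `ℓ ^ k` in the chart ring. -/
theorem dvd_pow_of_series (k : ℕ) : ∀ (x : chartAlgFin N ℓ)
    (Y : LaurentSeries ↥(GaloisRep.ratLocalizedAt ℓ)),
    ιI ℓ (((ℓ : ℕ) : LaurentSeries ↥(GaloisRep.ratLocalizedAt ℓ)) ^ k * Y) =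
      ((x : ↥(modularFunctionFieldFull N)) : LaurentSeries ℚ) →
    ∃ y : chartAlgFin N ℓ, x = ((ℓ : ℕ) : chartAlgFin N ℓ) ^ k * y ∧
      ιI ℓ Y = ((y : ↥(modularFunctionFieldFull N)) : LaurentSeries ℚ) := by
  induction k with
  | zero =>
    intro x Y h
    exact ⟨x, by simp, by simpa using h⟩
  | succ k ih =>
    intro x Y h
    have hρ : ρFin I x = 0 := by
      rw [ρFin_of_series I x h, map_mul, map_pow, map_natCast, natCast_LS_eq_zero,
        zero_pow (Nat.succ_ne_zero k), zero_mul]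
    obtain ⟨x₁, hx₁⟩ := ρFin_ker I x hρ
    have h1 : ιI ℓ (((ℓ : ℕ) : LaurentSeries ↥(GaloisRep.ratLocalizedAt ℓ)) ^ k * Y) =
        ((x₁ : ↥(modularFunctionFieldFull N)) : LaurentSeries ℚ) := by
      have h2 : ((ℓ : ℕ) : LaurentSeries ℚ) *
          ιI ℓ (((ℓ : ℕ) : LaurentSeries ↥(GaloisRep.ratLocalizedAt ℓ)) ^ k * Y) =
          ((ℓ : ℕ) : LaurentSeries ℚ) * coeB x₁ := by
        have h3 : coeB x = ((ℓ : ℕ) : LaurentSeries ℚ) * coeB x₁ := by
          rw [hx₁, map_mul, map_natCast]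
        rw [← h3, coeB_apply, ← h, pow_succ, map_mul, map_mul, map_mul, map_natCast]
        ring
      exact mul_left_cancel₀ natCast_LSQ_ne_zero h2
    obtain ⟨y, hy, hyY⟩ := ih x₁ Y h1
    refine ⟨y, ?_, hyY⟩
    rw [hx₁, hy, pow_succ]
    ring


omit I in
/-- clearing denominators: an element integral over `ℚ[j]` has an integer multiple integral over
`ℤ_(ℓ)[j]`. -/
theorem exists_int_mul_integral {x : ↥(modularFunctionFieldFull N)}
    (hint : ((aeval (jFull N) : Polynomial ℚ →ₐ[ℚ] ↥(modularFunctionFieldFull N)).toRingHom).IsIntegralElem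
      x) :
    ∃ D : ℤ, D ≠ 0 ∧ (φF N ℓ).IsIntegralElem ((D : ↥(modularFunctionFieldFull N)) * x) := by
  letI a1 : Algebra (Polynomial ℤ) (Polynomial ℚ) := Polynomial.algebra ℤ ℚ
  haveI loc : IsLocalization ((nonZeroDivisors ℤ).map (C : ℤ →+* Polynomial ℤ)) (Polynomial ℚ) :=
    Polynomial.isLocalization (nonZeroDivisors ℤ) ℚ
  letI a2 : Algebra (Polynomial ℚ) ↥(modularFunctionFieldFull N) :=
    ((aeval (jFull N) : Polynomial ℚ →ₐ[ℚ] ↥(modularFunctionFieldFull N)).toRingHom).toAlgebra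
  letI a3 : Algebra (Polynomial ℤ) ↥(modularFunctionFieldFull N) :=
    (((aeval (jFull N) : Polynomial ℚ →ₐ[ℚ] ↥(modularFunctionFieldFull N)).toRingHom).comp
      (algebraMap (Polynomial ℤ) (Polynomial ℚ))).toAlgebra
  haveI tower : IsScalarTower (Polynomial ℤ) (Polynomial ℚ) ↥(modularFunctionFieldFull N) :=
    IsScalarTower.of_algebraMap_eq (fun _ => rfl)
  have hx : IsIntegral (Polynomial ℚ) x := hint
  obtain ⟨⟨m, hm⟩, hmx⟩ := IsIntegral.exists_multiple_integral_of_isLocalization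
    ((nonZeroDivisors ℤ).map (C : ℤ →+* Polynomial ℤ)) x hx
  obtain ⟨D, hD, rfl⟩ := hm
  refine ⟨D, nonZeroDivisors.ne_zero hD, ?_⟩
  obtain ⟨p, hp, hpx⟩ := hmx
  have hcomp : (φF N ℓ).comp (mapRingHom (Int.castRingHom ↥(GaloisRep.ratLocalizedAt ℓ))) =
      algebraMap (Polynomial ℤ) ↥(modularFunctionFieldFull N) := by
    refine Polynomial.ringHom_ext' (RingHom.ext_int _ _) ?_
    show φF N ℓ (mapRingHom (Int.castRingHom _) X) =
      (aeval (jFull N) : Polynomial ℚ →ₐ[ℚ] _) (mapRingHom (algebraMap ℤ ℚ) X)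
    simp [φF_X]
  have hsmul : ((⟨C D, ⟨D, hD, rfl⟩⟩ : (nonZeroDivisors ℤ).map (C : ℤ →+* Polynomial ℤ)) • x) =
      (D : ↥(modularFunctionFieldFull N)) * x := by
    rw [Submonoid.smul_def, Algebra.smul_def]
    congr 1
    show (aeval (jFull N) : Polynomial ℚ →ₐ[ℚ] _) (mapRingHom (algebraMap ℤ ℚ) (C D)) = _
    simp
  rw [hsmul] at hpx
  refine ⟨p.map (mapRingHom (Int.castRingHom ↥(GaloisRep.ratLocalizedAt ℓ))), hp.map _, ?_⟩
  rw [eval₂_map, hcomp]
  exact hpx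

theorem ρ_natCast (h : ((ℓ : ℕ) : ↥(modularFunctionFieldFull N)) ∈ I.setup.CC) :
    I.setup.ρ ⟨((ℓ : ℕ) : ↥(modularFunctionFieldFull N)), h⟩ = 0 := by
  have h1 : (⟨((ℓ : ℕ) : ↥(modularFunctionFieldFull N)), h⟩ : I.setup.CC) =
      ((ℓ : ℕ) : I.setup.CC) := by
    apply Subtype.ext
    simp
  rw [h1, map_natCast]
  exact natCast_LS_eq_zero

/-- if `ℓ ^ k * x` lies in the chart ring and `x` lies in the valuation ring, then `x` lies in the
chart ring. -/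
theorem mem_of_pow_mul_mem (k : ℕ) : ∀ {x : ↥(modularFunctionFieldFull N)}, x ∈ I.setup.CC →
    ((ℓ : ℕ) : ↥(modularFunctionFieldFull N)) ^ k * x ∈ chartAlgFin N ℓ →
    x ∈ chartAlgFin N ℓ := by
  induction k with
  | zero =>
    intro x _ h
    simpa using h
  | succ k ih =>
    intro x hxC h
    have hlC : ((ℓ : ℕ) : ↥(modularFunctionFieldFull N)) ∈ I.setup.CC := by
      have : ((ℓ : ℕ) : ↥(modularFunctionFieldFull N)) = I.setup.φ I.setup.ϖ := φF_Cl.symm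
      rw [this]; exact I.setup.φ_mem_CC _
    have hρ : ρFin I ⟨_, h⟩ = 0 := by
      rw [ρFin_apply]
      have h1 : (⟨((ℓ : ℕ) : ↥(modularFunctionFieldFull N)) ^ (k + 1) * x,
          mem_CC_of_mem_chartAlgFin I ⟨_, h⟩⟩ : I.setup.CC) =
          (⟨((ℓ : ℕ) : ↥(modularFunctionFieldFull N)), hlC⟩ : I.setup.CC) ^ (k + 1) *
            ⟨x, hxC⟩ := by
        apply Subtype.ext
        simp
      rw [h1, map_mul, map_pow, ρ_natCast I hlC, zero_pow (Nat.succ_ne_zero k), zero_mul]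
    obtain ⟨y, hy⟩ := ρFin_ker I ⟨_, h⟩ hρ
    apply ih hxC
    have h2 : ((ℓ : ℕ) : ↥(modularFunctionFieldFull N)) *
        (((ℓ : ℕ) : ↥(modularFunctionFieldFull N)) ^ k * x) =
        ((ℓ : ℕ) : ↥(modularFunctionFieldFull N)) * (y : ↥(modularFunctionFieldFull N)) := by
      have h3 := congrArg (chartAlgFin N ℓ).val hy
      rw [map_mul, map_natCast] at h3
      have h4 : (chartAlgFin N ℓ).val ⟨_, h⟩ =
          ((ℓ : ℕ) : ↥(modularFunctionFieldFull N)) ^ (k + 1) * x := rfl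
      rw [h4] at h3
      rw [← mul_assoc, ← pow_succ', h3]
      rfl
    rw [mul_left_cancel₀ natCast_FF_ne_zero h2]
    exact y.2

/-- **`ℓ`-integral `q`-expansion + integral over `ℚ[j]` ⇒ in the chart ring.** -/
theorem mem_chartAlgFin_of_series {x : ↥(modularFunctionFieldFull N)}
    {X : LaurentSeries ↥(GaloisRep.ratLocalizedAt ℓ)}
    (hX : ιI ℓ X = (x : LaurentSeries ℚ))
    (hint : ((aeval (jFull N) : Polynomial ℚ →ₐ[ℚ] ↥(modularFunctionFieldFull N)).toRingHom).IsIntegralElem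
      x) : x ∈ chartAlgFin N ℓ := by
  have hxC := mem_CC_of_series I hX
  obtain ⟨D, hD0, hDx⟩ := exists_int_mul_integral (ℓ := ℓ) hint
  have hp : Prime ((ℓ : ℕ) : ℤ) := Nat.prime_iff_prime_int.mp hℓ.out
  obtain ⟨k, D', hD', rfl⟩ := WfDvdMonoid.max_power_factor' hD0 hp.not_isUnit
  -- `D'` is a unit of `ℤ_(ℓ)`
  have hu : IsUnit ((D' : ℤ) : ↥(GaloisRep.ratLocalizedAt ℓ)) := by
    have := IsLocalization.map_units (M := primeTo ℓ) ↥(GaloisRep.ratLocalizedAt ℓ)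
      ⟨D', (mem_primeTo ℓ).mpr hD'⟩
    simpa using this
  obtain ⟨u, hu⟩ := hu
  have hmem : (((((ℓ : ℕ) : ℤ) ^ k * D' : ℤ)) : ↥(modularFunctionFieldFull N)) * x ∈
      chartAlgFin N ℓ :=
    (mem_chartAlg_iff N ℓ).mpr (isIntegral_of_isIntegralElem (jFull N) hDx)
  have hmem2 := (chartAlgFin N ℓ).smul_mem hmem ((u⁻¹ : (↥(GaloisRep.ratLocalizedAt ℓ))ˣ) :
    ↥(GaloisRep.ratLocalizedAt ℓ))
  apply mem_of_pow_mul_mem I k hxC
  convert hmem2 using 1
  rw [Algebra.smul_def]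
  have h1 : algebraMap ↥(GaloisRep.ratLocalizedAt ℓ) ↥(modularFunctionFieldFull N)
      ((u⁻¹ : (↥(GaloisRep.ratLocalizedAt ℓ))ˣ) : ↥(GaloisRep.ratLocalizedAt ℓ)) *
      ((D' : ℤ) : ↥(modularFunctionFieldFull N)) = 1 := by
    rw [← map_intCast (algebraMap ↥(GaloisRep.ratLocalizedAt ℓ) ↥(modularFunctionFieldFull N)) D',
      ← map_mul, ← hu, Units.inv_mul, map_one]
  push_cast
  calc ((ℓ : ℕ) : ↥(modularFunctionFieldFull N)) ^ k * x
      = (algebraMap ↥(GaloisRep.ratLocalizedAt ℓ) ↥(modularFunctionFieldFull N)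
          ((u⁻¹ : (↥(GaloisRep.ratLocalizedAt ℓ))ˣ) : ↥(GaloisRep.ratLocalizedAt ℓ)) *
          ((D' : ℤ) : ↥(modularFunctionFieldFull N))) *
          (((ℓ : ℕ) : ↥(modularFunctionFieldFull N)) ^ k * x) := by rw [h1, one_mul]
    _ = _ := by ring

end ChartRing


section Final

open Fermat.Agent.S28.SeriesRed Fermat.Agent.S28.ZlBasics

variable (h : ¬ ℓ ∣ N)

theorem res_eq_red0 : res ℓ = red0 ℓ := ringHom_ext_Zl ℓ _ _

theorem incl_eq_ιI : incl ℓ = ιI ℓ := rfl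

theorem redSeries_eq_rI (f : intSeries ℓ) (X : LaurentSeries ↥(GaloisRep.ratLocalizedAt ℓ))
    (hX : ιI ℓ X = (f : LaurentSeries ℚ)) : redSeries ℓ f = rI ℓ X := by
  have h1 : f = inclEquiv ℓ X := Subtype.ext (by rw [coe_inclEquiv]; exact hX.symm)
  rw [h1, redSeries_inclEquiv, res_eq_red0]
  rfl

/-- **the reduction map of the chart ring** `B = chartAlgFin N ℓ` (`ℓ ∤ N`). -/
def ρB : chartAlgFin N ℓ →+* LaurentSeries (ZMod ℓ) := ρFin (inputOf N ℓ h)

/-- its kernel is `ℓ B`. -/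
theorem ρB_ker (x : chartAlgFin N ℓ) (hx : ρB N ℓ h x = 0) :
    ∃ y : chartAlgFin N ℓ, x = ((ℓ : ℕ) : chartAlgFin N ℓ) * y :=
  ρFin_ker (inputOf N ℓ h) x hx

theorem ρB_natCast : ρB N ℓ h ((ℓ : ℕ) : chartAlgFin N ℓ) = 0 := ρFin_natCast _

theorem ρB_j : ρB N ℓ h (jChartFin N ℓ) = jqModC (ZMod ℓ) := ρFin_j _

/-- `ρB` is the reduction of the `q`-expansion whenever the latter is `ℓ`-integral. -/
theorem ρB_eq_redSeries (x : chartAlgFin N ℓ)
    (hx : ((x : ↥(modularFunctionFieldFull N)) : LaurentSeries ℚ) ∈ intSeries ℓ) :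
    ρB N ℓ h x = redSeries ℓ ⟨_, hx⟩ := by
  obtain ⟨X, hX⟩ := hx
  rw [redSeries_eq_rI ℓ ⟨_, ⟨X, hX⟩⟩ X hX]
  exact ρFin_of_series _ x hX

/-- **(7)** the image of `ρB` lies in the function field `𝔽_ℓ(j̄, j̄_N)` of `X₀(N)` mod `ℓ`. -/
theorem ρB_mem_fieldC (x : chartAlgFin N ℓ) :
    ρB N ℓ h x ∈ modularFunctionFieldC (ZMod ℓ) N := ρFin_mem_fieldC _ x

theorem ρB_mem_fieldFullC (x : chartAlgFin N ℓ) :
    ρB N ℓ h x ∈ modularFunctionFieldFullC (ZMod ℓ) N :=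
  modularFunctionFieldC_le_full (ZMod ℓ) N (ρB_mem_fieldC N ℓ h x)

include h

/-- **(K1)** `ℓ` is prime in the chart ring. -/
theorem prime_l_chart : Prime ((ℓ : ℕ) : chartAlgFin N ℓ) := prime_natCast (inputOf N ℓ h)

/-- **`ℓ`-integral `q`-expansion + integral over `ℚ[j]` ⇒ in the chart ring.** -/
theorem mem_chartAlgFin_of_mem_intSeries {x : ↥(modularFunctionFieldFull N)}
    (hx : (x : LaurentSeries ℚ) ∈ intSeries ℓ)
    (hint : ((aeval (jFull N) : Polynomial ℚ →ₐ[ℚ] ↥(modularFunctionFieldFull N)).toRingHom).IsIntegralElem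
      x) : x ∈ chartAlgFin N ℓ := by
  obtain ⟨X, hX⟩ := hx
  exact mem_chartAlgFin_of_series (inputOf N ℓ h) hX hint

/-- variant with the integrality hypothesis in `IsIntegral (Algebra.adjoin ℚ {j})` shape. -/
theorem mem_chartAlgFin_of_mem_intSeries' {x : ↥(modularFunctionFieldFull N)}
    (hx : (x : LaurentSeries ℚ) ∈ intSeries ℓ)
    (hint : IsIntegral (Algebra.adjoin ℚ ({jFull N} : Set ↥(modularFunctionFieldFull N))) x) :
    x ∈ chartAlgFin N ℓ :=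
  mem_chartAlgFin_of_mem_intSeries N ℓ h hx
    (isIntegralElem_aeval_of_isIntegral_adjoin (jFull N) x hint)

/-- **(K2)** if the `q`-expansion of `x ∈ B` is `ℓ ^ k` times an `ℓ`-integral series `g`, then
`x = ℓ ^ k * y` with `y ∈ B` of `q`-expansion `g`. -/
theorem dvd_pow_of_mem_intSeries (x : chartAlgFin N ℓ) (k : ℕ) (g : LaurentSeries ℚ)
    (hg : g ∈ intSeries ℓ)
    (hxg : ((x : ↥(modularFunctionFieldFull N)) : LaurentSeries ℚ) =
      ((ℓ : ℕ) : LaurentSeries ℚ) ^ k * g) :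
    ∃ y : chartAlgFin N ℓ, x = ((ℓ : ℕ) : chartAlgFin N ℓ) ^ k * y ∧
      ((y : ↥(modularFunctionFieldFull N)) : LaurentSeries ℚ) = g := by
  obtain ⟨Y, hY⟩ := hg
  have hY' : ιI ℓ Y = g := hY
  obtain ⟨y, hy, hyY⟩ := dvd_pow_of_series (inputOf N ℓ h) k x Y (by
    rw [map_mul, map_pow, map_natCast, hY', hxg])
  exact ⟨y, hy, by rw [← hyY, hY']⟩

end Final

end

end Fermat.Agent.S16.ChartQExp
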