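import Mathlib
import Fermat.Agent.S16.ChartQExp

/-!
# S16 bridge, part B4b: the reduction map `ρB` on constants and integrality over `𝔽_ℓ[j̄]`

Additions to `ChartQExp.lean` (kept in a separate file so that the landed file stays untouched):

* `ρB_algebraMap` : `ρB (algebraMap ℤ_(ℓ) B a) = C (res a)`;
* `ρB_aeval`      : `ρB (g(j)) = ḡ(j̄)` for `g ∈ ℤ_(ℓ)[X]`;
* `ρB_exists_monic` / `ρB_isIntegral` : the reduction of every element of the chart ring is
  integral over `𝔽_ℓ[j̄]` (with an explicit monic two-variable polynomial).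
-/

set_option autoImplicit false

noncomputable section

namespace Fermat.Agent.S16.ChartQExpInt

open Polynomial ModularCurve ModularCurve.IgusaScheme Fermat.Agent.S28 Fermat.Agent.S28.ChartRed
open Fermat.Agent.S28.SeriesRed Fermat.Agent.S28.ZlBasics Fermat.Agent.S16.ChartQExp

section Generic

/-- integrality over the subalgebra `R[j]` gives a monic polynomial with coefficients in the
polynomial ring `R[X]` evaluated at `j` (commutative rings). -/
theorem isIntegralElem_aeval_of_isIntegral_adjoin_ring {R A : Type*} [CommRing R] [CommRing A]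
    [Algebra R A] (j x : A) (hx : IsIntegral (Algebra.adjoin R ({j} : Set A)) x) :
    ((aeval j : R[X] →ₐ[R] A).toRingHom).IsIntegralElem x := by
  obtain ⟨p, hp, hpx⟩ := hx
  let g : R[X] →ₐ[R] Algebra.adjoin R ({j} : Set A) :=
    (aeval j : R[X] →ₐ[R] A).codRestrict (Algebra.adjoin R ({j} : Set A)) (fun q => by
      rw [Algebra.adjoin_singleton_eq_range_aeval]; exact ⟨q, rfl⟩)
  have hg : Function.Surjective g := by
    rintro ⟨y, hy⟩
    rw [Algebra.adjoin_singleton_eq_range_aeval] at hy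
    obtain ⟨q, hq⟩ := hy
    exact ⟨q, Subtype.ext hq⟩
  have hl : p ∈ lifts g.toRingHom := by
    rw [lifts_iff_coeff_lifts]
    intro n
    obtain ⟨q, hq⟩ := hg (p.coeff n)
    exact ⟨q, hq⟩
  obtain ⟨q, hq, -, hqm⟩ := lifts_and_natDegree_eq_and_monic hl hp
  refine ⟨q, hqm, ?_⟩
  rw [← hq, eval₂_map] at hpx
  exact hpx

end Generic

variable (N : ℕ) [NeZero N] (ℓ : ℕ) [hℓ : Fact ℓ.Prime] (h : ¬ ℓ ∣ N)

/-- `ρB` on the constants `ℤ_(ℓ)`. -/
theorem ρB_algebraMap (a : ↥(GaloisRep.ratLocalizedAt ℓ)) :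
    ρB N ℓ h (algebraMap ↥(GaloisRep.ratLocalizedAt ℓ) ↥(chartAlgFin N ℓ) a) =
      HahnSeries.C (res ℓ a) := by
  have hx : (((algebraMap ↥(GaloisRep.ratLocalizedAt ℓ) ↥(chartAlgFin N ℓ) a :
      ↥(chartAlgFin N ℓ)) : ↥(modularFunctionFieldFull N)) : LaurentSeries ℚ) =
      ((cInt ℓ a : intSeries ℓ) : LaurentSeries ℚ) := by
    rw [coe_cInt]
    rfl
  have hmem : (((algebraMap ↥(GaloisRep.ratLocalizedAt ℓ) ↥(chartAlgFin N ℓ) a :
      ↥(chartAlgFin N ℓ)) : ↥(modularFunctionFieldFull N)) : LaurentSeries ℚ) ∈ intSeries ℓ := by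
    rw [hx]; exact (cInt ℓ a).2
  rw [ρB_eq_redSeries N ℓ h _ hmem, ← redSeries_cInt]
  congr 1
  exact Subtype.ext hx

/-- the ring hom `ℤ_(ℓ)[X] → 𝔽_ℓ((q))`, `g ↦ ḡ(j̄)`. -/
def evJbar : Polynomial ↥(GaloisRep.ratLocalizedAt ℓ) →+* LaurentSeries (ZMod ℓ) :=
  eval₂RingHom ((HahnSeries.C : ZMod ℓ →+* LaurentSeries (ZMod ℓ)).comp (res ℓ))
    (jqModC (ZMod ℓ))

theorem ρB_comp_aeval :
    (ρB N ℓ h).comp ((aeval (jChartFin N ℓ) :
      Polynomial ↥(GaloisRep.ratLocalizedAt ℓ) →ₐ[↥(GaloisRep.ratLocalizedAt ℓ)]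
        ↥(chartAlgFin N ℓ)).toRingHom) = evJbar ℓ := by
  apply Polynomial.ringHom_ext
  · intro a
    simp only [RingHom.coe_comp, Function.comp_apply, AlgHom.toRingHom_eq_coe, RingHom.coe_coe,
      aeval_C, evJbar, coe_eval₂RingHom, eval₂_C]
    exact ρB_algebraMap N ℓ h a
  · simp only [RingHom.coe_comp, Function.comp_apply, AlgHom.toRingHom_eq_coe, RingHom.coe_coe,
      aeval_X, evJbar, coe_eval₂RingHom, eval₂_X]
    exact ρB_j N ℓ h

/-- `ρB (g(j)) = ḡ(j̄)`. -/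
theorem ρB_aeval (g : Polynomial ↥(GaloisRep.ratLocalizedAt ℓ)) :
    ρB N ℓ h (aeval (jChartFin N ℓ) g) = evJbar ℓ g := by
  rw [← ρB_comp_aeval N ℓ h]
  rfl

theorem evJbar_eq :
    (eval₂RingHom (HahnSeries.C : ZMod ℓ →+* LaurentSeries (ZMod ℓ)) (jqModC (ZMod ℓ))).comp
      (Polynomial.mapRingHom (res ℓ)) = evJbar ℓ := by
  apply Polynomial.ringHom_ext
  · intro a
    simp [evJbar]
  · simp [evJbar]

/-- every element of the chart ring satisfies a monic polynomial over `ℤ_(ℓ)[j]`, written inside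
the chart ring. -/
theorem exists_monic_chart (x : chartAlgFin N ℓ) :
    ∃ q : Polynomial (Polynomial ↥(GaloisRep.ratLocalizedAt ℓ)), q.Monic ∧
      eval₂ ((aeval (jChartFin N ℓ) :
        Polynomial ↥(GaloisRep.ratLocalizedAt ℓ) →ₐ[↥(GaloisRep.ratLocalizedAt ℓ)]
          ↥(chartAlgFin N ℓ)).toRingHom) x q = 0 := by
  have hx : IsIntegral (Algebra.adjoin ↥(GaloisRep.ratLocalizedAt ℓ)
      ({jFull N} : Set ↥(modularFunctionFieldFull N))) (x : ↥(modularFunctionFieldFull N)) :=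
    (mem_chartAlg_iff N ℓ).mp x.2
  obtain ⟨q, hq, hqx⟩ := isIntegralElem_aeval_of_isIntegral_adjoin_ring (jFull N)
    (x : ↥(modularFunctionFieldFull N)) hx
  refine ⟨q, hq, ?_⟩
  apply Subtype.ext
  have e : ((chartAlgFin N ℓ).val.toRingHom).comp ((aeval (jChartFin N ℓ) :
        Polynomial ↥(GaloisRep.ratLocalizedAt ℓ) →ₐ[↥(GaloisRep.ratLocalizedAt ℓ)]
          ↥(chartAlgFin N ℓ)).toRingHom) =
      ((aeval (jFull N) : Polynomial ↥(GaloisRep.ratLocalizedAt ℓ) →ₐ[↥(GaloisRep.ratLocalizedAt ℓ)]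
          ↥(modularFunctionFieldFull N)).toRingHom) := by
    apply Polynomial.ringHom_ext
    · intro a
      simp
    · simp
  have := hom_eval₂ q ((aeval (jChartFin N ℓ) :
        Polynomial ↥(GaloisRep.ratLocalizedAt ℓ) →ₐ[↥(GaloisRep.ratLocalizedAt ℓ)]
          ↥(chartAlgFin N ℓ)).toRingHom) ((chartAlgFin N ℓ).val.toRingHom) x
  rw [e] at this
  exact this.trans hqx

/-- **the reduction of every element of the chart ring is integral over `𝔽_ℓ[j̄]`**: explicit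
monic polynomial `W ∈ 𝔽_ℓ[X][Y]` with `W(j̄, ρB x) = 0`. -/
theorem ρB_exists_monic (x : chartAlgFin N ℓ) :
    ∃ W : Polynomial (Polynomial (ZMod ℓ)), W.Monic ∧
      eval₂ (eval₂RingHom (HahnSeries.C : ZMod ℓ →+* LaurentSeries (ZMod ℓ)) (jqModC (ZMod ℓ)))
        (ρB N ℓ h x) W = 0 := by
  obtain ⟨q, hq, hqx⟩ := exists_monic_chart N ℓ x
  refine ⟨q.map (Polynomial.mapRingHom (res ℓ)), hq.map _, ?_⟩
  rw [eval₂_map, evJbar_eq, ← ρB_comp_aeval N ℓ h, ← hom_eval₂, hqx, map_zero]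

/-- the same statement in `IsIntegral` form. -/
theorem ρB_isIntegral (x : chartAlgFin N ℓ) :
    IsIntegral (Algebra.adjoin (ZMod ℓ) ({jqModC (ZMod ℓ)} : Set (LaurentSeries (ZMod ℓ))))
      (ρB N ℓ h x) := by
  obtain ⟨W, hW, hWx⟩ := ρB_exists_monic N ℓ h x
  let g : Polynomial (ZMod ℓ) →ₐ[ZMod ℓ]
      Algebra.adjoin (ZMod ℓ) ({jqModC (ZMod ℓ)} : Set (LaurentSeries (ZMod ℓ))) :=
    (aeval (jqModC (ZMod ℓ)) : Polynomial (ZMod ℓ) →ₐ[ZMod ℓ] LaurentSeries (ZMod ℓ)).codRestrict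
      (Algebra.adjoin (ZMod ℓ) ({jqModC (ZMod ℓ)} : Set (LaurentSeries (ZMod ℓ)))) (fun q => by
        rw [Algebra.adjoin_singleton_eq_range_aeval]; exact ⟨q, rfl⟩)
  refine ⟨W.map g.toRingHom, hW.map _, ?_⟩
  rw [eval₂_map]
  have e : (algebraMap (Algebra.adjoin (ZMod ℓ) ({jqModC (ZMod ℓ)} : Set (LaurentSeries (ZMod ℓ))))
      (LaurentSeries (ZMod ℓ))).comp g.toRingHom =
      eval₂RingHom (HahnSeries.C : ZMod ℓ →+* LaurentSeries (ZMod ℓ)) (jqModC (ZMod ℓ)) := by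
    apply Polynomial.ringHom_ext
    · intro a
      simp only [RingHom.coe_comp, Function.comp_apply, coe_eval₂RingHom, eval₂_C]
      change (aeval (jqModC (ZMod ℓ)) (C a) : LaurentSeries (ZMod ℓ)) = _
      rw [aeval_C, HahnSeries.C_apply, algebraMap_laurentSeries_eq_single]
    · simp only [RingHom.coe_comp, Function.comp_apply, coe_eval₂RingHom, eval₂_X]
      change (aeval (jqModC (ZMod ℓ)) X : LaurentSeries (ZMod ℓ)) = _
      rw [aeval_X]
  rw [e]
  exact hWx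

end Fermat.Agent.S16.ChartQExpInt
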