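import Mathlib
import Fermat.Agent.S16.Estar

/-!
# S16: the Fricke involution on `E*` and the arithmetic of `σ'`
-/

set_option autoImplicit false

namespace Fermat.Agent.S16.EstarFricke

open UpperHalfPlane CongruenceSubgroup Matrix.SpecialLinearGroup Filter Topology EisensteinSeries
open Fermat.Agent.S20 Fermat.Agent.S20.Rank Fermat.Agent.S24.JConj Fermat.Agent.S16.Estar
open scoped MatrixGroups ModularForm Manifold Real

noncomputable section

variable (N : ℕ) [NeZero N]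

/-- the expansion of `N E₂(N z) - E₂(z)` at the cusp `0` -/
theorem fE_slash_S (z : ℍ) :
    (fE N ∣[(2 : ℤ)] ModularGroup.S) z =
      (1 / (N : ℂ)) * E2 (affH 1 0 N one_pos (natCast_pos' N) z) - E2 z := by
  have hN : (0 : ℤ) < N := by exact_mod_cast Nat.pos_of_ne_zero (NeZero.ne N)
  have h := fE_slash_of_decomp N ModularGroup.S ModularGroup.S 1 0 N one_pos hN (by ring)
    (by simp [ModularGroup.S]) (by simp [ModularGroup.S]) (by simp [ModularGroup.S])
    (by simp [ModularGroup.S]) z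
  rw [h]
  congr 2
  · push_cast; ring
  · congr 1
    apply UpperHalfPlane.ext
    rw [coe_affH, coe_affH]
    push_cast
    ring

/-- **Fricke**: `E* | W_N = - E*`, in the form `(fE ∣ S)(N z) = -(1/N) fE(z)`. -/
theorem fE_slash_S_mulN (z : ℍ) :
    (fE N ∣[(2 : ℤ)] ModularGroup.S) (mulN N z) = -(1 / (N : ℂ)) * fE N z := by
  rw [fE_slash_S]
  have hNC : (N : ℂ) ≠ 0 := Nat.cast_ne_zero.mpr (NeZero.ne N)
  have hz : affH 1 0 N one_pos (natCast_pos' N) (mulN N z) = z := by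
    apply UpperHalfPlane.ext
    rw [coe_affH, coe_mulN]
    push_cast
    field_simp
    ring
  rw [hz]
  unfold fE
  field_simp
  ring

/-! ### arithmetic of `σ'` at prime level -/

section Sigma

open scoped ArithmeticFunction.sigma

variable {p : ℕ}

/-- at prime level, `σ'(n) = σ(n / p^{v_p(n)})`. -/
theorem sigmaPrime_eq_sigma_ordCompl (hp : p.Prime) {n : ℕ} (hn : n ≠ 0) :
    sigmaPrime p n = σ 1 (n / p ^ n.factorization p) := by
  rw [ArithmeticFunction.sigma_one_apply, sigmaPrime]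
  congr 1
  ext d
  rw [Finset.mem_filter, Nat.mem_divisors, Nat.mem_divisors]
  have hm0 : n / p ^ n.factorization p ≠ 0 := (Nat.ordCompl_pos p hn).ne'
  have hdvd : n / p ^ n.factorization p ∣ n := Nat.ordCompl_dvd n p
  constructor
  · rintro ⟨⟨hdn, -⟩, hpd⟩
    refine ⟨?_, hm0⟩
    have hcop : Nat.Coprime d (p ^ n.factorization p) :=
      Nat.Coprime.pow_right _ ((Nat.Prime.coprime_iff_not_dvd hp).mpr hpd).symm
    have hn' : n = p ^ n.factorization p * (n / p ^ n.factorization p) :=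
      (Nat.ordProj_mul_ordCompl_eq_self n p).symm
    rw [hn'] at hdn
    exact hcop.dvd_of_dvd_mul_left hdn
  · rintro ⟨hdm, -⟩
    refine ⟨⟨hdm.trans hdvd, hn⟩, fun hpd => ?_⟩
    exact Nat.not_dvd_ordCompl hp hn (hpd.trans hdm)

theorem sigmaPrime_zero : sigmaPrime p 0 = 0 := by simp [sigmaPrime]

theorem sigmaPrime_one (hp : p.Prime) : sigmaPrime p 1 = 1 := by
  rw [sigmaPrime_eq_sigma_ordCompl hp one_ne_zero]
  simp

/-- `σ'` is multiplicative. -/
theorem sigmaPrime_mul_of_coprime (hp : p.Prime) {m n : ℕ} (hmn : m.Coprime n) :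
    sigmaPrime p (m * n) = sigmaPrime p m * sigmaPrime p n := by
  by_cases hm : m = 0
  · subst hm; simp [sigmaPrime_zero]
  by_cases hn : n = 0
  · subst hn; simp [sigmaPrime_zero]
  rw [sigmaPrime_eq_sigma_ordCompl hp (Nat.mul_ne_zero hm hn), sigmaPrime_eq_sigma_ordCompl hp hm,
    sigmaPrime_eq_sigma_ordCompl hp hn, Nat.ordCompl_mul]
  refine ArithmeticFunction.isMultiplicative_sigma.map_mul_of_coprime ?_
  exact Nat.Coprime.coprime_dvd_left (Nat.ordCompl_dvd m p)
    (Nat.Coprime.coprime_dvd_right (Nat.ordCompl_dvd n p) hmn)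

/-- `σ'(p^r) = 1`. -/
theorem sigmaPrime_pow_self (hp : p.Prime) (r : ℕ) : sigmaPrime p (p ^ r) = 1 := by
  rw [sigmaPrime_eq_sigma_ordCompl hp (pow_ne_zero r hp.ne_zero)]
  rw [Nat.Prime.factorization_pow hp]
  simp [Nat.div_self (pow_pos hp.pos r)]

/-- for `p ∤ n`, `σ'(n) = σ(n)`. -/
theorem sigmaPrime_of_not_dvd (hp : p.Prime) {n : ℕ} (hpn : ¬ p ∣ n) :
    sigmaPrime p n = σ 1 n := by
  have hn : n ≠ 0 := fun h => hpn (h ▸ dvd_zero p)
  rw [sigmaPrime_eq_sigma_ordCompl hp hn, Nat.factorization_eq_zero_of_not_dvd hpn, pow_zero,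
    Nat.div_one]

/-- for a prime `l ≠ p`: `σ'(l^r) = 1 + l + … + l^r`. -/
theorem sigmaPrime_prime_pow (hp : p.Prime) {l : ℕ} (hl : l.Prime) (hlp : l ≠ p) (r : ℕ) :
    sigmaPrime p (l ^ r) = ∑ i ∈ Finset.range (r + 1), l ^ i := by
  have hpl : ¬ p ∣ l ^ r := fun h =>
    hlp ((Nat.prime_dvd_prime_iff_eq hp hl).mp (hp.dvd_of_dvd_pow h)).symm
  rw [sigmaPrime_of_not_dvd hp hpl, ArithmeticFunction.sigma_apply_prime_pow hl]
  simp

/-- the Hecke recursion at a prime `l ≠ p`. -/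
theorem sigmaPrime_prime_pow_succ_succ (hp : p.Prime) {l : ℕ} (hl : l.Prime) (hlp : l ≠ p)
    (r : ℕ) :
    sigmaPrime p (l ^ (r + 2)) + l * sigmaPrime p (l ^ r) =
      sigmaPrime p l * sigmaPrime p (l ^ (r + 1)) := by
  have h1 : sigmaPrime p l = 1 + l := by
    have := sigmaPrime_prime_pow hp hl hlp 1
    simpa [Finset.sum_range_succ] using this
  rw [h1, sigmaPrime_prime_pow hp hl hlp, sigmaPrime_prime_pow hp hl hlp,
    sigmaPrime_prime_pow hp hl hlp]
  rw [Finset.sum_range_succ _ (r + 2), Finset.sum_range_succ _ (r + 1)]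
  ring

end Sigma

end

end Fermat.Agent.S16.EstarFricke
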